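/-
P-ORD (helper4): the HOPF LEMMA of the lead's blueprint (findings #489), Mathlib only.

`R` a ring in which every non-unit is divisible by the odd prime `p`, `p`-adically separated and
`p`-torsion free (e.g. a discrete valuation ring with uniformiser `p`: an UNRAMIFIED base),
`G` a group of order `p`.  Then every Hopf order in `Maps(G, R)` - an `R`-subalgebra `H` of
`G → R` which separates `0` from some point and is closed under the comultiplication
`h ↦ ((x, y) ↦ h (x + y))` - is all of `G → R`.

Proof.  The points not separated from `0` by `H` modulo `p` form a subgroup `S` of `G`.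
If `S = 0`, the indicator function of `0` is in `H` (product of separating functions), hence
`H = ⊤`.  If `S = G`, all functions of `H` are constant modulo `p`; then the difference operator
`D = T - 1` (`T` the translation by `g₀ ≠ 0`) maps `H` into `p H`, and `(1 + D) ^ p = 1` forces
`D H ⊆ p ^ j H` for all `j` (here `p` odd is used), so `D = 0` on `H`: `H` does not separate `0`
and `g₀`.
-/
import Mathlib

set_option autoImplicit false
set_option linter.unusedSectionVars false
set_option linter.style.haveILetI false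

namespace Fermat.Agent.H4.ORD

section HopfLemma

variable {R : Type*} [CommRing R] {G : Type*} [AddCommGroup G]

/-- `H` is closed under the comultiplication of `Maps(G, R)`. -/
def ComulClosed (H : Subalgebra R (G → R)) : Prop :=
  ∀ h ∈ H, ∃ (n : ℕ) (a b : Fin n → G → R),
    (∀ i, a i ∈ H) ∧ (∀ i, b i ∈ H) ∧ ∀ z z' : G, h (z + z') = ∑ i, a i z * b i z'

/-- A comultiplication-closed subalgebra is stable under translations. -/
theorem translate_mem {H : Subalgebra R (G → R)} (hc : ComulClosed H) (a : G) {h : G → R}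
    (hh : h ∈ H) : (fun x => h (x + a)) ∈ H := by
  obtain ⟨n, α, β, hα, hβ, e⟩ := hc h hh
  have : (fun x => h (x + a)) = ∑ i, β i a • α i := by
    funext x
    rw [e, Finset.sum_apply]
    exact Finset.sum_congr rfl fun i _ => by simp [mul_comm]
  rw [this]
  exact Subalgebra.sum_mem _ (fun i _ => Subalgebra.smul_mem _ (hα i) _)

/-- The difference `h (· + a) - h` of a function of `H` is an `R`-combination of functions of
`H` with coefficients of the form `b a - b 0`, `b ∈ H`. -/
theorem translate_sub_eq {H : Subalgebra R (G → R)} (hc : ComulClosed H) (a : G) {h : G → R}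
    (hh : h ∈ H) : ∃ (n : ℕ) (α β : Fin n → G → R), (∀ i, α i ∈ H) ∧ (∀ i, β i ∈ H) ∧
      (fun x => h (x + a) - h x) = ∑ i, (β i a - β i 0) • α i := by
  obtain ⟨n, α, β, hα, hβ, e⟩ := hc h hh
  refine ⟨n, α, β, hα, hβ, ?_⟩
  funext x
  have h1 := e x a
  have h2 := e x 0
  rw [add_zero] at h2
  rw [h1, h2, Finset.sum_apply, ← Finset.sum_sub_distrib]
  exact Finset.sum_congr rfl fun i _ => by simp; ring

/-- The points of `G` which `H` does not separate from `0` modulo `p`. -/
def congSubgroup (p : ℕ) (H : Subalgebra R (G → R)) (hc : ComulClosed H) : AddSubgroup G where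
  carrier := {g | ∀ h ∈ H, (p : R) ∣ h g - h 0}
  zero_mem' := fun h _ => by simp
  add_mem' := by
    intro g g' hg hg' h hh
    have h1 := hg _ (translate_mem hc g' hh)
    have h2 := hg' h hh
    simp only [zero_add] at h1
    have e : h (g + g') - h 0 = (h (g + g') - h g') + (h g' - h 0) := by ring
    rw [e]
    exact dvd_add h1 h2
  neg_mem' := by
    intro g hg h hh
    have h1 := hg _ (translate_mem hc (-g) hh)
    simp only [add_neg_cancel, zero_add] at h1
    have e : h (-g) - h 0 = -(h 0 - h (-g)) := by ring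
    rw [e]
    exact (dvd_neg).2 h1

theorem mem_congSubgroup {p : ℕ} {H : Subalgebra R (G → R)} {hc : ComulClosed H} {g : G} :
    g ∈ congSubgroup p H hc ↔ ∀ h ∈ H, (p : R) ∣ h g - h 0 := Iff.rfl

end HopfLemma

section Separated

variable {R : Type*} [CommRing R] {G : Type*} [AddCommGroup G] [Finite G]

/-- If `H` contains the indicator function of `0` it is everything. -/
theorem eq_top_of_single_mem {H : Subalgebra R (G → R)} (hc : ComulClosed H)
    [DecidableEq G] (h0 : (Pi.single (0 : G) (1 : R) : G → R) ∈ H) : H = ⊤ := by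
  classical
  haveI : Fintype G := Fintype.ofFinite G
  rw [eq_top_iff]
  intro f _
  have hsingle : ∀ a : G, (Pi.single a (1 : R) : G → R) ∈ H := by
    intro a
    have := translate_mem hc (-a) h0
    have e : (fun x => (Pi.single (0 : G) (1 : R) : G → R) (x + -a)) = Pi.single a 1 := by
      funext x
      by_cases hx : x = a
      · subst hx
        simp
      · have hx' : x + -a ≠ 0 := by
          intro h
          apply hx
          rw [← sub_eq_add_neg, sub_eq_zero] at h
          exact h
        simp [hx, hx']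
    rw [e] at this
    exact this
  have hf : f = ∑ a, f a • (Pi.single a (1 : R) : G → R) := by
    funext x
    rw [Finset.sum_apply]
    simp [Pi.single_apply]
  rw [hf]
  exact Subalgebra.sum_mem _ (fun a _ => Subalgebra.smul_mem _ (hsingle a) _)

/-- If `H` separates every nonzero point from `0` modulo the non-units, then `H = ⊤`. -/
theorem eq_top_of_separated {H : Subalgebra R (G → R)} (hc : ComulClosed H)
    (hsep : ∀ g : G, g ≠ 0 → ∃ h ∈ H, IsUnit (h g - h 0)) : H = ⊤ := by
  classical
  haveI : Fintype G := Fintype.ofFinite G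
  have hch : ∀ g : G, ∃ h ∈ H, g ≠ 0 → IsUnit (h g - h 0) := by
    intro g
    by_cases hg : g = 0
    · exact ⟨1, H.one_mem, fun h => absurd hg h⟩
    · obtain ⟨h, hh, hu⟩ := hsep g hg
      exact ⟨h, hh, fun _ => hu⟩
  choose σ hσH hσ using hch
  let e : G → R := ∏ g ∈ Finset.univ.erase (0 : G), (σ g - algebraMap R (G → R) (σ g g))
  have heH : e ∈ H := by
    refine Subalgebra.prod_mem _ fun g _ => ?_
    exact Subalgebra.sub_mem _ (hσH g) (Subalgebra.algebraMap_mem _ _)
  have he_apply : ∀ x : G, e x = ∏ g ∈ Finset.univ.erase (0 : G), (σ g x - σ g g) := by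
    intro x
    simp only [e, Finset.prod_apply, Pi.sub_apply]
    rfl
  have he_ne : ∀ x : G, x ≠ 0 → e x = 0 := by
    intro x hx
    rw [he_apply]
    exact Finset.prod_eq_zero (Finset.mem_erase.2 ⟨hx, Finset.mem_univ x⟩) (sub_self _)
  have he_zero : IsUnit (e 0) := by
    rw [he_apply]
    have hfac : ∀ g ∈ Finset.univ.erase (0 : G), IsUnit (σ g 0 - σ g g) := by
      intro g hg
      have := hσ g (Finset.ne_of_mem_erase hg)
      have e' : σ g 0 - σ g g = -(σ g g - σ g 0) := by ring
      rw [e']
      exact this.neg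
    exact IsUnit.prod_iff.2 hfac
  obtain ⟨u, hu⟩ := he_zero
  have hsingle : (Pi.single (0 : G) (1 : R) : G → R) = (↑u⁻¹ : R) • e := by
    funext x
    by_cases hx : x = 0
    · subst hx
      simp [← hu]
    · simp [hx, he_ne x hx]
  apply eq_top_of_single_mem hc
  rw [hsingle]
  exact Subalgebra.smul_mem _ heH _

end Separated

section Connected

variable {R : Type*} [CommRing R] {G : Type*} [AddCommGroup G]

/-- The submodule `p ^ j H` of `Maps(G, R)`. -/
def powSub (p : ℕ) (H : Subalgebra R (G → R)) (j : ℕ) : Submodule R (G → R) :=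
  (Subalgebra.toSubmodule H).map (LinearMap.lsmul R (G → R) ((p : R) ^ j))

theorem mem_powSub {p : ℕ} {H : Subalgebra R (G → R)} {j : ℕ} {x : G → R} :
    x ∈ powSub p H j ↔ ∃ h ∈ H, (p : R) ^ j • h = x := by
  unfold powSub
  rw [Submodule.mem_map]
  rfl

theorem powSub_anti {p : ℕ} {H : Subalgebra R (G → R)} {a b : ℕ} (hab : b ≤ a) :
    powSub p H a ≤ powSub p H b := by
  intro x hx
  obtain ⟨h, hh, rfl⟩ := mem_powSub.1 hx
  refine mem_powSub.2 ⟨(p : R) ^ (a - b) • h, Subalgebra.smul_mem _ hh _, ?_⟩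
  rw [smul_smul, ← pow_add, Nat.add_sub_cancel' hab]

/-- The translation operator. -/
def translate (g₀ : G) : Module.End R (G → R) := LinearMap.funLeft R R (fun x => x + g₀)

theorem translate_apply (g₀ : G) (h : G → R) (x : G) :
    translate (R := R) g₀ h x = h (x + g₀) := rfl

theorem translate_pow_apply (g₀ : G) (k : ℕ) (h : G → R) (x : G) :
    ((translate (R := R) g₀) ^ k) h x = h (x + k • g₀) := by
  induction k generalizing x with
  | zero => simp
  | succ k ih =>
    rw [pow_succ', Module.End.mul_apply, translate_apply, ih]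
    congr 1
    rw [succ_nsmul]
    abel

/-- The difference operator `D = T - 1`. -/
def diffOp (g₀ : G) : Module.End R (G → R) := translate g₀ - 1

theorem diffOp_apply (g₀ : G) (h : G → R) (x : G) :
    diffOp (R := R) g₀ h x = h (x + g₀) - h x := rfl

/-- `D` maps `H` into `p H` when all functions of `H` are constant modulo `p`. -/
theorem diffOp_mem_powSub_one {p : ℕ} {H : Subalgebra R (G → R)} (hc : ComulClosed H)
    (g₀ : G) (hconst : ∀ h ∈ H, (p : R) ∣ h g₀ - h 0) {h : G → R} (hh : h ∈ H) :
    diffOp g₀ h ∈ powSub p H 1 := by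
  obtain ⟨n, α, β, hα, hβ, e⟩ := translate_sub_eq hc g₀ hh
  have e' : diffOp g₀ h = ∑ i, (β i g₀ - β i 0) • α i := e
  rw [e']
  refine Submodule.sum_mem _ fun i _ => ?_
  obtain ⟨r, hr⟩ := hconst _ (hβ i)
  rw [hr, mem_powSub]
  refine ⟨r • α i, Subalgebra.smul_mem _ (hα i) _, ?_⟩
  rw [pow_one, smul_smul]

/-- Iterating: `D ^ i` maps `H` into `p ^ (i j) H` if `D` maps `H` into `p ^ j H`. -/
theorem diffOp_pow_mem {p : ℕ} {H : Subalgebra R (G → R)} (g₀ : G) (j : ℕ)
    (hD : ∀ h ∈ H, diffOp g₀ h ∈ powSub p H j) (i : ℕ) :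
    ∀ h ∈ H, ((diffOp (R := R) g₀) ^ i) h ∈ powSub p H (i * j) := by
  induction i with
  | zero =>
    intro h hh
    rw [pow_zero, zero_mul, mem_powSub]
    exact ⟨h, hh, by simp⟩
  | succ i ih =>
    intro h hh
    rw [pow_succ', Module.End.mul_apply]
    obtain ⟨h', hh', e⟩ := mem_powSub.1 (ih h hh)
    rw [← e, map_smul]
    obtain ⟨h'', hh'', e'⟩ := mem_powSub.1 (hD h' hh')
    rw [← e', smul_smul, ← pow_add, mem_powSub]
    exact ⟨h'', hh'', by rw [Nat.succ_mul]⟩

end Connected

section Main

variable {R : Type*} [CommRing R] {G : Type*} [AddCommGroup G]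

/-- The binomial identity `h = ∑ (p choose m) D ^ m h` for a translation of order `p`. -/
theorem sum_choose_diffOp (p : ℕ) (g₀ : G) (hg₀ : p • g₀ = 0) (h : G → R) :
    ∑ m ∈ Finset.range (p + 1), (p.choose m : R) • ((diffOp (R := R) g₀) ^ m) h = h := by
  have hT : (translate (R := R) g₀) ^ p = 1 := by
    apply LinearMap.ext
    intro f
    funext x
    rw [translate_pow_apply, hg₀, add_zero]
    rfl
  have hTD : translate (R := R) g₀ = diffOp g₀ + 1 := by
    unfold diffOp
    abel
  rw [hTD, (Commute.one_right (diffOp (R := R) g₀)).add_pow] at hT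
  have := congrArg (fun φ : Module.End R (G → R) => φ h) hT
  simp only [one_pow, mul_one, LinearMap.sum_apply, Module.End.one_apply] at this
  refine Eq.trans (Finset.sum_congr rfl fun m _ => ?_) this
  rw [Module.End.mul_apply]
  simp only [Module.End.natCast_apply]
  rw [map_nsmul, Nat.cast_smul_eq_nsmul]

/-- The induction step: `D H ⊆ p ^ j H` implies `D H ⊆ p ^ (j + 1) H` (`p` odd, `j ≥ 1`). -/
theorem diffOp_mem_succ {p : ℕ} (hp : p.Prime) (hp2 : p ≠ 2)
    (hT : ∀ r : R, (p : R) * r = 0 → r = 0)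
    {H : Subalgebra R (G → R)} (g₀ : G) (hg₀ : p • g₀ = 0) (j : ℕ) (hj : 1 ≤ j)
    (hD : ∀ h ∈ H, diffOp g₀ h ∈ powSub p H j) :
    ∀ h ∈ H, diffOp g₀ h ∈ powSub p H (j + 1) := by
  intro h hh
  have hp3 : 3 ≤ p := by
    have := hp.two_le
    omega
  obtain ⟨q, rfl⟩ : ∃ q, p = q + 2 := ⟨p - 2, by omega⟩
  have hsum := sum_choose_diffOp (R := R) (q + 2) g₀ hg₀ h
  rw [Finset.sum_range_succ', Finset.sum_range_succ'] at hsum
  simp only [Nat.choose_zero_right, Nat.cast_one, pow_zero, Module.End.one_apply, one_smul,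
    zero_add, Nat.choose_one_right, pow_one] at hsum
  -- the tail lies in `p ^ (j + 2) H`
  have htail : ∑ m ∈ Finset.range (q + 1),
      (((q + 2).choose (m + 1 + 1) : ℕ) : R) • ((diffOp (R := R) g₀) ^ (m + 1 + 1)) h
        ∈ powSub (q + 2) H (j + 2) := by
    refine Submodule.sum_mem _ fun m hm => ?_
    have hm' : m < q + 1 := Finset.mem_range.1 hm
    have hpow := diffOp_pow_mem g₀ j hD (m + 1 + 1) h hh
    by_cases hmq : m + 2 = q + 2
    · -- the top term
      have hm2 : m = q := by omega
      subst hm2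
      rw [Nat.choose_self, Nat.cast_one, one_smul]
      refine powSub_anti ?_ hpow
      nlinarith
    · have hlt : m + 1 + 1 < q + 2 := by omega
      have hdvd : (q + 2) ∣ (q + 2).choose (m + 1 + 1) :=
        hp.dvd_choose_self (by omega) hlt
      obtain ⟨c, hc⟩ := hdvd
      obtain ⟨h', hh', e⟩ := mem_powSub.1 hpow
      rw [hc, ← e, mem_powSub]
      refine ⟨((c : R) * ((q + 2 : ℕ) : R) ^ ((m + 1 + 1) * j + 1 - (j + 2))) • h',
        Subalgebra.smul_mem _ hh' _, ?_⟩
      rw [smul_smul, smul_smul]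
      congr 1
      have hle : j + 2 ≤ (m + 1 + 1) * j + 1 := by nlinarith
      have e1 : ((q + 2 : ℕ) : R) ^ ((m + 1 + 1) * j + 1)
          = ((q + 2 : ℕ) : R) ^ (j + 2) * ((q + 2 : ℕ) : R) ^ ((m + 1 + 1) * j + 1 - (j + 2)) := by
        rw [← pow_add, Nat.add_sub_cancel' hle]
      rw [Nat.cast_mul]
      generalize ((q + 2 : ℕ) : R) = P at e1 ⊢
      generalize (m + 1 + 1) * j + 1 - (j + 2) = A at e1 ⊢
      linear_combination (-(c : R)) * e1
  obtain ⟨h'', hh'', e⟩ := mem_powSub.1 htail
  rw [mem_powSub]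
  refine ⟨-h'', Subalgebra.neg_mem _ hh'', ?_⟩
  funext x
  have hx := congrFun hsum x
  have ex := congrFun e x
  simp only [Pi.add_apply, Pi.smul_apply, smul_eq_mul, Pi.neg_apply] at hx ex ⊢
  have key : ((q + 2 : ℕ) : R) * (((q + 2 : ℕ) : R) ^ (j + 1) * -h'' x - diffOp g₀ h x) = 0 := by
    have e2 : ((q + 2 : ℕ) : R) ^ (j + 2) = ((q + 2 : ℕ) : R) * ((q + 2 : ℕ) : R) ^ (j + 1) := by
      rw [← pow_succ']
    rw [e2] at ex
    linear_combination -ex - hx
  exact sub_eq_zero.1 (hT _ key)

/-- **HOPF LEMMA.**  Over an unramified base with odd residue characteristic `p`, every Hopf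
order in `Maps(G, R)`, `G` of order `p`, is everything. -/
theorem hopfOrder_eq_top (p : ℕ) (hp : p.Prime) (hp2 : p ≠ 2)
    (hU : ∀ r : R, IsUnit r ∨ (p : R) ∣ r)
    (hS : ∀ r : R, (∀ j : ℕ, (p : R) ^ j ∣ r) → r = 0)
    (hT : ∀ r : R, (p : R) * r = 0 → r = 0)
    [Finite G] (hG : Nat.card G = p)
    (H : Subalgebra R (G → R))
    (hsep : ∀ g : G, g ≠ 0 → ∃ h ∈ H, h g ≠ h 0)
    (hcomul : ComulClosed H) : H = ⊤ := by
  classical
  haveI : Fact (Nat.card G).Prime := ⟨hG ▸ hp⟩
  rcases (congSubgroup p H hcomul).eq_bot_or_eq_top_of_prime_card with hbot | htop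
  · -- the separated case
    apply eq_top_of_separated hcomul
    intro g hg
    have hgS : g ∉ congSubgroup p H hcomul := by
      rw [hbot, AddSubgroup.mem_bot]
      exact hg
    rw [mem_congSubgroup] at hgS
    push Not at hgS
    obtain ⟨h, hh, hnd⟩ := hgS
    exact ⟨h, hh, (hU _).resolve_right hnd⟩
  · -- the connected case: impossible
    exfalso
    have hnt : Nontrivial G := by
      rw [← Finite.one_lt_card_iff_nontrivial, hG]
      exact hp.one_lt
    obtain ⟨g₀, hg₀⟩ := exists_ne (0 : G)
    have hpg : p • g₀ = 0 := by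
      rw [← hG]
      exact card_nsmul_eq_zero'
    have hconst : ∀ h ∈ H, (p : R) ∣ h g₀ - h 0 := by
      have : g₀ ∈ congSubgroup p H hcomul := by rw [htop]; trivial
      exact this
    have hall : ∀ j : ℕ, 1 ≤ j → ∀ h ∈ H, diffOp g₀ h ∈ powSub p H j := by
      intro j hj
      induction j, hj using Nat.le_induction with
      | base => exact fun h hh => diffOp_mem_powSub_one hcomul g₀ hconst hh
      | succ j hj ih => exact diffOp_mem_succ hp hp2 hT g₀ hpg j hj ih
    obtain ⟨h, hh, hne⟩ := hsep g₀ hg₀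
    apply hne
    have hzero : diffOp g₀ h 0 = 0 := by
      apply hS
      intro j
      rcases Nat.eq_zero_or_pos j with rfl | hj
      · simp
      · obtain ⟨h', -, e⟩ := mem_powSub.1 (hall j hj h hh)
        rw [← e]
        exact ⟨h' 0, rfl⟩
    rw [diffOp_apply, zero_add] at hzero
    exact sub_eq_zero.1 hzero

end Main

section Corollaries

variable {R : Type*} [CommRing R] {G : Type*} [AddCommGroup G]

/-- **HOPF LEMMA**, for a discrete valuation ring with uniformiser `p`, `p` odd. -/
theorem hopfOrder_eq_top_of_dvr [IsDomain R] [IsDiscreteValuationRing R]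
    (p : ℕ) (hp : p.Prime) (hp2 : p ≠ 2) (hirr : Irreducible (p : R))
    [Finite G] (hG : Nat.card G = p)
    (H : Subalgebra R (G → R))
    (hsep : ∀ g : G, g ≠ 0 → ∃ h ∈ H, h g ≠ h 0)
    (hcomul : ComulClosed H) : H = ⊤ := by
  have hmax : IsLocalRing.maximalIdeal R = Ideal.span {(p : R)} := hirr.maximalIdeal_eq
  refine hopfOrder_eq_top p hp hp2 ?_ ?_ ?_ hG H hsep hcomul
  · intro r
    by_cases hr : IsUnit r
    · exact Or.inl hr
    · right
      have : r ∈ IsLocalRing.maximalIdeal R := (IsLocalRing.mem_maximalIdeal r).2 hr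
      rw [hmax, Ideal.mem_span_singleton] at this
      exact this
  · intro r hr
    have hne : IsLocalRing.maximalIdeal R ≠ ⊤ := Ideal.IsPrime.ne_top'
    have hinf := Ideal.iInf_pow_eq_bot_of_isLocalRing (IsLocalRing.maximalIdeal R) hne
    have hmem : r ∈ ⨅ i : ℕ, IsLocalRing.maximalIdeal R ^ i := by
      rw [Ideal.mem_iInf]
      intro i
      rw [hmax, Ideal.span_singleton_pow, Ideal.mem_span_singleton]
      exact hr i
    rw [hinf, Ideal.mem_bot] at hmem
    exact hmem
  · intro r hr
    exact (mul_eq_zero.1 hr).resolve_left hirr.ne_zero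

/-- **HOPF LEMMA** for functions with values in an `R`-algebra `L ⊇ R`: a Hopf order `H` of
`R`-valued functions inside `Maps(G, L)` contains every `R`-valued function. -/
theorem hopfOrder_values (L : Type*) [CommRing L] [Algebra R L]
    (hinj : Function.Injective (algebraMap R L))
    (p : ℕ) (hp : p.Prime) (hp2 : p ≠ 2)
    (hU : ∀ r : R, IsUnit r ∨ (p : R) ∣ r)
    (hS : ∀ r : R, (∀ j : ℕ, (p : R) ^ j ∣ r) → r = 0)
    (hT : ∀ r : R, (p : R) * r = 0 → r = 0)
    [Finite G] (hG : Nat.card G = p)
    (H : Subalgebra R (G → L))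
    (hval : ∀ h ∈ H, ∀ g : G, h g ∈ (algebraMap R L).range)
    (hsep : ∀ g : G, g ≠ 0 → ∃ h ∈ H, h g ≠ h 0)
    (hcomul : ∀ h ∈ H, ∃ (n : ℕ) (a b : Fin n → G → L),
      (∀ i, a i ∈ H) ∧ (∀ i, b i ∈ H) ∧ ∀ z z' : G, h (z + z') = ∑ i, a i z * b i z')
    (f : G → R) : (fun g => algebraMap R L (f g)) ∈ H := by
  classical
  let φ : (G → R) →ₐ[R] (G → L) :=
    { toFun := fun f g => algebraMap R L (f g)
      map_one' := by funext g; simp
      map_mul' := fun a b => by funext g; simp
      map_zero' := by funext g; simp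
      map_add' := fun a b => by funext g; simp
      commutes' := fun r => by funext g; simp [Algebra.algebraMap_eq_smul_one] }
  have hφ : ∀ (f : G → R) (g : G), φ f g = algebraMap R L (f g) := fun _ _ => rfl
  have hlift : ∀ h ∈ H, ∃ h' : G → R, φ h' = h := by
    intro h hh
    choose h' hh' using fun g => hval h hh g
    exact ⟨h', funext hh'⟩
  have htop : H.comap φ = ⊤ := by
    refine hopfOrder_eq_top p hp hp2 hU hS hT hG (H.comap φ) ?_ ?_
    · intro g hg
      obtain ⟨h, hh, hne⟩ := hsep g hg
      obtain ⟨h', rfl⟩ := hlift h hh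
      refine ⟨h', hh, fun e => hne ?_⟩
      rw [hφ, hφ, e]
    · intro h hh
      obtain ⟨n, a, b, ha, hb, e⟩ := hcomul (φ h) hh
      choose a' ha' using fun i => hlift (a i) (ha i)
      choose b' hb' using fun i => hlift (b i) (hb i)
      refine ⟨n, a', b', fun i => ?_, fun i => ?_, fun z z' => ?_⟩
      · show φ (a' i) ∈ H
        rw [ha']
        exact ha i
      · show φ (b' i) ∈ H
        rw [hb']
        exact hb i
      · apply hinj
        rw [← hφ h, e, map_sum]
        refine Finset.sum_congr rfl fun i _ => ?_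
        rw [map_mul, ← ha', ← hb']
        rfl
  have : f ∈ H.comap φ := by rw [htop]; trivial
  exact this

end Corollaries

end Fermat.Agent.H4.ORD
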