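/-
P-ORD (S33), block B1, row 1155 [HART] (second seat helper4): MODEL-LEVEL LOCAL HARTOGS WITH
COMPONENT HYPOTHESES.

Level `M q` (`q` prime, `q ∤ M`), `K₁` a number field, `A₀` ANY discrete valuation ring of `K₁`
in which `q` is not a unit (ramified allowed), `E = ModelField K₁ (M q)`, chart `y = j` or
`y = j⁻¹`, `B = chartClosure A₀ E y`, `V_∞ = vInf`, `V_0 = vZero W` (helper7).

* `modelHartogsComp_of` : the same for a PRIME `𝔪`, with the local Hartogs property at `𝔪` as a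
  hypothesis `hH`; `mh_chart_facts` : transcendence / finiteness / injectivity in both charts;
* `modelHartogsComp` : let `𝔪 ∋ ϖ` be a maximal ideal of `B` and `g ∈ E` such that
    - `g ∈ V_∞` if `𝔪` lies on the component `C_∞` (i.e. `B ∩ 𝔪_∞ ⊆ 𝔪`),
    - `g ∈ V_0` if `𝔪` lies on the component `C_0` (i.e. `B ∩ 𝔪_0 ⊆ 𝔪`),
    - `g ∈ V` for every place `V` centred at `𝔪`.
  Then `b g ∈ B` for some `b ∈ B ∖ 𝔪`.

No "every closed point lies on a component" input is needed: for each component NOT through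
`𝔪` one multiplies `g` by a power of an element of `B ∖ 𝔪` vanishing on that component.
-/
import Fermat.Agent.H17.ORD.ModelLift
import Fermat.Agent.H4.SS.Hartogs
import Fermat.Agent.H31.SS.Separate

set_option autoImplicit false
set_option synthInstance.maxHeartbeats 400000
set_option maxHeartbeats 1000000
set_option linter.unusedSectionVars false
set_option linter.style.haveILetI false

noncomputable section

namespace Fermat.Agent.H4.ORD

open Polynomial ModularCurve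
open Fermat.Agent.H22.KL Fermat.Agent.H82.SS Fermat.Agent.H7.SS2 Fermat.Agent.H11.SS2
open Fermat.Agent.H45

section Abstract

variable {E : Type} [Field E]

/-- In a valuation subring with uniformiser `t` such that every element becomes integral after
multiplication by a power of `t`, every element becomes integral after multiplication by a
power of any given non-unit `b`. -/
theorem mh_pow_mul_mem (V : ValuationSubring E) {t : E} (ht : IsUniformiser E V t)
    (hfac : ∀ g : E, ∃ n : ℕ, t ^ n * g ∈ V) {b : E} (hb : b ∈ V.nonunits) (g : E) :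
    ∃ n : ℕ, b ^ n * g ∈ V := by
  obtain ⟨ht0, -, hdiv⟩ := ht
  obtain ⟨n, hn⟩ := hfac g
  refine ⟨n, ?_⟩
  have e : b ^ n * g = (b / t) ^ n * (t ^ n * g) := by
    rw [div_pow]
    field_simp
  rw [e]
  exact V.mul_mem _ _ (pow_mem (hdiv b hb) n) hn

/-- a power of an element of a valuation subring lies in it -/
theorem mh_mul_mem_of_pow (V : ValuationSubring E) {b c g : E} (hc : c ∈ V) {n : ℕ}
    (h : b ^ n * g ∈ V) : (b ^ n * c) * g ∈ V := by
  have e : (b ^ n * c) * g = c * (b ^ n * g) := by ring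
  rw [e]
  exact V.mul_mem _ _ hc h

end Abstract

section Model

variable {K₁ : Type} [Field K₁] [Algebra ℚ K₁] {A₀ : Type} [CommRing A₀] [IsDomain A₀]
  [IsDiscreteValuationRing A₀] [Algebra A₀ K₁] [IsFractionRing A₀ K₁] {N : ℕ}
  [Algebra A₀ (ModelField K₁ N)] [IsScalarTower A₀ K₁ (ModelField K₁ N)]

/-- every element of the model field becomes integral at `V_∞` after multiplication by a power
of the uniformiser -/
theorem mh_factor_vInf {ϖ : A₀} (hϖ : Irreducible ϖ) (g : ModelField K₁ N) :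
    ∃ n : ℕ, algebraMap A₀ (ModelField K₁ N) ϖ ^ n * g ∈ vInf K₁ A₀ N := by
  by_cases hg : g ∈ vInf K₁ A₀ N
  · exact ⟨0, by simpa using hg⟩
  · have hg0 : g ≠ 0 := fun h => hg (h ▸ (vInf K₁ A₀ N).zero_mem)
    have hgi : g⁻¹ ∈ vInf K₁ A₀ N := ((vInf K₁ A₀ N).mem_or_inv_mem g).resolve_left hg
    obtain ⟨n, -, h2⟩ := gaussVal_factor _ (Fermat.Agent.H7.SS.hasGNF_model K₁ A₀ N) hϖ g⁻¹ hgi
      (inv_ne_zero hg0)
    refine ⟨n, ?_⟩
    rw [algebraMap_uniformiser]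
    have e : algebraMap K₁ (ModelField K₁ N) (algebraMap A₀ K₁ ϖ) ^ n * g =
        algebraMap K₁ (ModelField K₁ N) (algebraMap A₀ K₁ ϖ) ^ n / g⁻¹ := by
      rw [div_eq_mul_inv, inv_inv]
    rw [e]
    exact h2

/-- the same at `V_0` -/
theorem mh_factor_vZero (W : ModelField K₁ N ≃ₐ[K₁] ModelField K₁ N) {ϖ : A₀}
    (hϖ : Irreducible ϖ) (g : ModelField K₁ N) :
    ∃ n : ℕ, algebraMap A₀ (ModelField K₁ N) ϖ ^ n * g ∈ vZero K₁ A₀ N W := by
  obtain ⟨n, hn⟩ := mh_factor_vInf (K₁ := K₁) (N := N) hϖ (W g)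
  refine ⟨n, ?_⟩
  have hW : W (algebraMap A₀ (ModelField K₁ N) ϖ) = algebraMap A₀ (ModelField K₁ N) ϖ := by
    rw [algebraMap_uniformiser, W.commutes]
  rw [mem_vZero_iff, map_mul, map_pow, hW]
  exact hn

end Model

section Level

variable (M q : ℕ) [NeZero M] [NeZero q]
  (K₁ : Type) [Field K₁] [Algebra ℚ K₁] [FiniteDimensional ℚ K₁]
  (A₀ : Type) [CommRing A₀] [IsDomain A₀] [IsDiscreteValuationRing A₀]
  [Algebra A₀ K₁] [IsFractionRing A₀ K₁]
  [Algebra A₀ (ModelField K₁ (M * q))] [IsScalarTower A₀ K₁ (ModelField K₁ (M * q))]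
  (hqA : ¬ IsUnit ((q : ℕ) : A₀)) (ϖ : A₀) (hϖ : Irreducible ϖ)
  (x : ModelField K₁ (M * q)) (hx : (x : LaurentSeries K₁) = coeffEmb K₁ jq)
  (W : ModelField K₁ (M * q) ≃ₐ[K₁] ModelField K₁ (M * q)) (hW : IsAtkinLehnerModel K₁ M q W)
  (hq : q.Prime) (hqM : ¬ q ∣ M)

include hqA hϖ hx hW hq hqM

/-- `B(y) ⊆ V_∞ ∩ V_0` for `y = j` and for `y = j⁻¹`. -/
theorem mh_chartClosure_le (y : ModelField K₁ (M * q)) (hy : y = x ∨ y = x⁻¹)
    (z : ModelField K₁ (M * q)) (hz : z ∈ chartClosure A₀ (ModelField K₁ (M * q)) y) :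
    z ∈ vInf K₁ A₀ (M * q) ∧ z ∈ vZero K₁ A₀ (M * q) W := by
  have hxtr : Transcendental A₀ x :=
    Fermat.Agent.H58.modelTranscendental_jq (M * q) K₁ A₀ x hx
  rcases hy with rfl | rfl
  · exact Fermat.Agent.H17.ORD.chartClosure_le_vInf_vZero M q K₁ A₀ hqA ϖ hϖ y hx W hW hq hqM z hz
  · have hxi : Transcendental A₀ x⁻¹ := Fermat.Agent.H89.klg_transcendental_inv hxtr
    have h1 : z ∈ gaussClosure A₀ (ModelField K₁ (M * q)) ϖ x⁻¹ :=
      Fermat.Agent.H89.klg_chartClosure_le_gaussClosure hϖ hxi hz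
    have h2 : z ∈ gaussClosure A₀ (ModelField K₁ (M * q)) ϖ x := by
      have := Fermat.Agent.H89.klg_gaussClosure_le_inv (ϖ := ϖ) hxi h1
      rwa [inv_inv] at this
    exact mem_vInf_vZero_of_mem_gaussClosure M q K₁ A₀ hqA ϖ hϖ x hx W hW z h2

/-- `V_∞ ∩ V_0 ⊆ C(y)` for `y = j` and for `y = j⁻¹`. -/
theorem mh_mem_gaussClosure (y : ModelField K₁ (M * q)) (hy : y = x ∨ y = x⁻¹)
    (z : ModelField K₁ (M * q)) (h1 : z ∈ vInf K₁ A₀ (M * q))
    (h2 : z ∈ vZero K₁ A₀ (M * q) W) :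
    z ∈ gaussClosure A₀ (ModelField K₁ (M * q)) ϖ y := by
  have hxtr : Transcendental A₀ x :=
    Fermat.Agent.H58.modelTranscendental_jq (M * q) K₁ A₀ x hx
  have h := mem_gaussClosure_of_mem_vInf_vZero M q K₁ A₀ hqA ϖ hϖ x hx W hW hq hqM z h1 h2
  rcases hy with rfl | rfl
  · exact h
  · exact Fermat.Agent.H89.klg_gaussClosure_le_inv hxtr h

/-- **MODEL-LEVEL LOCAL HARTOGS WITH COMPONENT HYPOTHESES, prime form.**  `𝔪` is any PRIME
ideal of `B(y)`; the local Hartogs property at `𝔪` is the hypothesis `hH` (for `𝔪` maximal it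
is `Fermat.Agent.H4.SS.localHartogs`, see `modelHartogsComp`). -/
theorem modelHartogsComp_of (y : ModelField K₁ (M * q)) (hy : y = x ∨ y = x⁻¹)
    (𝔪 : Ideal (chartClosure A₀ (ModelField K₁ (M * q)) y)) (h𝔪p : 𝔪.IsPrime)
    (hH : ∀ z : ModelField K₁ (M * q), z ∈ gaussClosure A₀ (ModelField K₁ (M * q)) ϖ y →
      (∀ V : ValuationSubring (ModelField K₁ (M * q)),
        CentredAt A₀ (ModelField K₁ (M * q)) y 𝔪 V → z ∈ V) →
      ∃ b : chartClosure A₀ (ModelField K₁ (M * q)) y, b ∉ 𝔪 ∧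
        (b : ModelField K₁ (M * q)) * z ∈ chartClosure A₀ (ModelField K₁ (M * q)) y)
    (g : ModelField K₁ (M * q))
    (hoo : (∀ b : chartClosure A₀ (ModelField K₁ (M * q)) y,
      (b : ModelField K₁ (M * q)) ∈ (vInf K₁ A₀ (M * q)).nonunits → b ∈ 𝔪) →
      g ∈ vInf K₁ A₀ (M * q))
    (hzero : (∀ b : chartClosure A₀ (ModelField K₁ (M * q)) y,
      (b : ModelField K₁ (M * q)) ∈ (vZero K₁ A₀ (M * q) W).nonunits → b ∈ 𝔪) →
      g ∈ vZero K₁ A₀ (M * q) W)
    (hV : ∀ V : ValuationSubring (ModelField K₁ (M * q)),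
      CentredAt A₀ (ModelField K₁ (M * q)) y 𝔪 V → g ∈ V) :
    ∃ b : chartClosure A₀ (ModelField K₁ (M * q)) y, b ∉ 𝔪 ∧
      (b : ModelField K₁ (M * q)) * g ∈ chartClosure A₀ (ModelField K₁ (M * q)) y := by
  classical
  have hB := mh_chartClosure_le M q K₁ A₀ hqA ϖ hϖ x hx W hW hq hqM y hy
  -- the multiplier for the component `∞`
  obtain ⟨f₁, hf₁𝔪, hf₁g⟩ : ∃ f₁ : chartClosure A₀ (ModelField K₁ (M * q)) y, f₁ ∉ 𝔪 ∧
      (f₁ : ModelField K₁ (M * q)) * g ∈ vInf K₁ A₀ (M * q) := by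
    by_cases h : ∀ b : chartClosure A₀ (ModelField K₁ (M * q)) y,
        (b : ModelField K₁ (M * q)) ∈ (vInf K₁ A₀ (M * q)).nonunits → b ∈ 𝔪
    · refine ⟨1, (Ideal.ne_top_iff_one 𝔪).1 h𝔪p.ne_top, ?_⟩
      simpa using hoo h
    · push Not at h
      obtain ⟨b, hb, hb𝔪⟩ := h
      obtain ⟨n, hn⟩ := mh_pow_mul_mem (vInf K₁ A₀ (M * q))
        (isUniformiser_vInf (K₁ := K₁) (N := M * q) hϖ)
        (mh_factor_vInf (K₁ := K₁) (N := M * q) hϖ) hb g
      exact ⟨b ^ n, fun h => hb𝔪 (h𝔪p.mem_of_pow_mem n h), hn⟩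
  -- the multiplier for the component `0`
  obtain ⟨f₂, hf₂𝔪, hf₂g⟩ : ∃ f₂ : chartClosure A₀ (ModelField K₁ (M * q)) y, f₂ ∉ 𝔪 ∧
      (f₂ : ModelField K₁ (M * q)) * g ∈ vZero K₁ A₀ (M * q) W := by
    by_cases h : ∀ b : chartClosure A₀ (ModelField K₁ (M * q)) y,
        (b : ModelField K₁ (M * q)) ∈ (vZero K₁ A₀ (M * q) W).nonunits → b ∈ 𝔪
    · refine ⟨1, (Ideal.ne_top_iff_one 𝔪).1 h𝔪p.ne_top, ?_⟩
      simpa using hzero h
    · push Not at h
      obtain ⟨b, hb, hb𝔪⟩ := h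
      obtain ⟨n, hn⟩ := mh_pow_mul_mem (vZero K₁ A₀ (M * q) W)
        (isUniformiser_vZero (K₁ := K₁) (N := M * q) W hϖ)
        (mh_factor_vZero (K₁ := K₁) (N := M * q) W hϖ) hb g
      exact ⟨b ^ n, fun h => hb𝔪 (h𝔪p.mem_of_pow_mem n h), hn⟩
  -- `f₁ f₂ g ∈ V_∞ ∩ V_0 = C(y)`
  have h1 : ((f₁ * f₂ : chartClosure A₀ (ModelField K₁ (M * q)) y) : ModelField K₁ (M * q)) * g ∈
      vInf K₁ A₀ (M * q) := by
    have e : ((f₁ * f₂ : chartClosure A₀ (ModelField K₁ (M * q)) y) : ModelField K₁ (M * q)) * g =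
        (f₂ : ModelField K₁ (M * q)) * ((f₁ : ModelField K₁ (M * q)) * g) := by
      push_cast
      ring
    rw [e]
    exact (vInf K₁ A₀ (M * q)).mul_mem _ _ (hB _ f₂.2).1 hf₁g
  have h2 : ((f₁ * f₂ : chartClosure A₀ (ModelField K₁ (M * q)) y) : ModelField K₁ (M * q)) * g ∈
      vZero K₁ A₀ (M * q) W := by
    have e : ((f₁ * f₂ : chartClosure A₀ (ModelField K₁ (M * q)) y) : ModelField K₁ (M * q)) * g =
        (f₁ : ModelField K₁ (M * q)) * ((f₂ : ModelField K₁ (M * q)) * g) := by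
      push_cast
      ring
    rw [e]
    exact (vZero K₁ A₀ (M * q) W).mul_mem _ _ (hB _ f₁.2).2 hf₂g
  have hC := mh_mem_gaussClosure M q K₁ A₀ hqA ϖ hϖ x hx W hW hq hqM y hy _ h1 h2
  have hVV : ∀ V : ValuationSubring (ModelField K₁ (M * q)),
      CentredAt A₀ (ModelField K₁ (M * q)) y 𝔪 V →
      ((f₁ * f₂ : chartClosure A₀ (ModelField K₁ (M * q)) y) : ModelField K₁ (M * q)) * g ∈ V :=
    fun V hVc => V.mul_mem _ _
      (Fermat.Agent.H31.SS.mem_of_mem_chartClosure hVc.1 (f₁ * f₂).2) (hV V hVc)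
  obtain ⟨b, hb𝔪, hbz⟩ := hH _ hC hVV
  refine ⟨b * (f₁ * f₂), ?_, ?_⟩
  · intro h
    rcases h𝔪p.mem_or_mem h with h | h
    · exact hb𝔪 h
    · rcases h𝔪p.mem_or_mem h with h | h
      · exact hf₁𝔪 h
      · exact hf₂𝔪 h
  · have e : ((b * (f₁ * f₂) : chartClosure A₀ (ModelField K₁ (M * q)) y) :
        ModelField K₁ (M * q)) * g =
        (b : ModelField K₁ (M * q)) *
          (((f₁ * f₂ : chartClosure A₀ (ModelField K₁ (M * q)) y) : ModelField K₁ (M * q)) * g) := by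
      push_cast
      ring
    rw [e]
    exact hbz

/-- the standing facts needed to call a local Hartogs statement in the chart `y = j` or
`y = j⁻¹` : `y` is transcendental over `A₀`, the model field is finite over the chart field, and
`A₀ → E` is injective. -/
theorem mh_chart_facts (y : ModelField K₁ (M * q)) (hy : y = x ∨ y = x⁻¹) :
    Transcendental A₀ y ∧
    (∃ n : ℕ, Nonempty (Module.Basis (Fin n)
      (chartField A₀ (ModelField K₁ (M * q)) y) (ModelField K₁ (M * q)))) ∧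
    Function.Injective (algebraMap A₀ (ModelField K₁ (M * q))) := by
  have hxtr : Transcendental A₀ x :=
    Fermat.Agent.H58.modelTranscendental_jq (M * q) K₁ A₀ x hx
  refine ⟨?_, ?_, ?_⟩
  · rcases hy with rfl | rfl
    · exact hxtr
    · exact Fermat.Agent.H89.klg_transcendental_inv hxtr
  · have h := Fermat.Agent.H57.SS.modelFinite (M * q) K₁ A₀ x hx
    rcases hy with rfl | rfl
    · exact h
    · rw [Fermat.Agent.H89.klg_chartField_inv]
      exact h
  · rw [IsScalarTower.algebraMap_eq A₀ K₁ (ModelField K₁ (M * q))]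
    exact (algebraMap K₁ (ModelField K₁ (M * q))).injective.comp (IsFractionRing.injective A₀ K₁)

/-- **MODEL-LEVEL LOCAL HARTOGS WITH COMPONENT HYPOTHESES** at a maximal ideal `𝔪 ∋ ϖ`. -/
theorem modelHartogsComp (y : ModelField K₁ (M * q)) (hy : y = x ∨ y = x⁻¹)
    (𝔪 : Ideal (chartClosure A₀ (ModelField K₁ (M * q)) y)) (h𝔪 : 𝔪.IsMaximal)
    (hϖ𝔪 : algebraMap A₀ (chartClosure A₀ (ModelField K₁ (M * q)) y) ϖ ∈ 𝔪)
    (g : ModelField K₁ (M * q))
    (hoo : (∀ b : chartClosure A₀ (ModelField K₁ (M * q)) y,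
      (b : ModelField K₁ (M * q)) ∈ (vInf K₁ A₀ (M * q)).nonunits → b ∈ 𝔪) →
      g ∈ vInf K₁ A₀ (M * q))
    (hzero : (∀ b : chartClosure A₀ (ModelField K₁ (M * q)) y,
      (b : ModelField K₁ (M * q)) ∈ (vZero K₁ A₀ (M * q) W).nonunits → b ∈ 𝔪) →
      g ∈ vZero K₁ A₀ (M * q) W)
    (hV : ∀ V : ValuationSubring (ModelField K₁ (M * q)),
      CentredAt A₀ (ModelField K₁ (M * q)) y 𝔪 V → g ∈ V) :
    ∃ b : chartClosure A₀ (ModelField K₁ (M * q)) y, b ∉ 𝔪 ∧
      (b : ModelField K₁ (M * q)) * g ∈ chartClosure A₀ (ModelField K₁ (M * q)) y := by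
  haveI : CharZero K₁ := charZero_of_injective_algebraMap (algebraMap ℚ K₁).injective
  haveI : CharZero (ModelField K₁ (M * q)) :=
    charZero_of_injective_algebraMap (algebraMap K₁ (ModelField K₁ (M * q))).injective
  obtain ⟨hytr, hfin, hinj⟩ := mh_chart_facts M q K₁ A₀ hqA ϖ hϖ x hx W hW hq hqM y hy
  exact modelHartogsComp_of M q K₁ A₀ hqA ϖ hϖ x hx W hW hq hqM y hy 𝔪 h𝔪.isPrime
    (fun z hzC hzV => Fermat.Agent.H4.SS.localHartogs A₀ (ModelField K₁ (M * q)) hinj ϖ hϖ y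
      hytr hfin 𝔪 h𝔪 hϖ𝔪 z hzC hzV)
    g hoo hzero hV

end Level

end Fermat.Agent.H4.ORD
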