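/-
P-ORD (S33), block B1, row 1155 [HART] (second seat helper4): helper31's model-level interface
`Fermat.Agent.H31.ORD.HartModelStatement M p`, from `modelHartogsComp_of` and helper31's local
Hartogs at a prime ideal.
-/
import Fermat.Agent.H4.ORD.ModelHartogs
import Fermat.Agent.H31.ORD.HartModelDef
import Fermat.Agent.H31.ORD.HartPrime

set_option autoImplicit false
set_option synthInstance.maxHeartbeats 400000
set_option maxHeartbeats 1000000
set_option linter.unusedSectionVars false
set_option linter.style.haveILetI false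

noncomputable section

namespace Fermat.Agent.H4.ORD

open ModularCurve
open Fermat.Agent.H22.KL Fermat.Agent.H82.SS Fermat.Agent.H7.SS2 Fermat.Agent.H45

/-- **(H2)** helper31's `HartModelStatement` : model-level local Hartogs with component
hypotheses at a prime ideal, both charts, any discrete valuation ring `A₀` over `p`. -/
theorem hartModel (M p : ℕ) [NeZero M] [NeZero p] :
    Fermat.Agent.H31.ORD.HartModelStatement M p := by
  intro K₁ _ _ _ A₀ _ _ _ _ _ _ _ hqA hp hpM x hx W hW y hy 𝔪 h𝔪 g hoo hzero hV
  haveI : CharZero K₁ := charZero_of_injective_algebraMap (algebraMap ℚ K₁).injective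
  haveI : CharZero (ModelField K₁ (M * p)) :=
    charZero_of_injective_algebraMap (algebraMap K₁ (ModelField K₁ (M * p))).injective
  obtain ⟨ϖ, hϖ⟩ := IsDiscreteValuationRing.exists_irreducible A₀
  obtain ⟨hytr, hfin, hinj⟩ := mh_chart_facts M p K₁ A₀ hqA ϖ hϖ x hx W hW hp hpM y hy
  exact modelHartogsComp_of M p K₁ A₀ hqA ϖ hϖ x hx W hW hp hpM y hy 𝔪 h𝔪
    (fun z hzC hzV => Fermat.Agent.H31.ORD.hp_localHartogs_prime A₀ (ModelField K₁ (M * p))
      hinj ϖ hϖ y hytr hfin 𝔪 h𝔪 z hzC hzV)
    g hoo hzero hV

end Fermat.Agent.H4.ORD
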