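/-
P-ORD (S33), block B1, row 1155 [HART]: THE CLOSED TERM.
`nmHartogs4 : NmHartogsStatement M p` = helper31's descent `nmHartogs_of_model` applied to the
model-level statement `hartModel` (helper4).
-/
import Fermat.Agent.H4.ORD.HartModel
import Fermat.Agent.H31.ORD.HartMain

set_option autoImplicit false

noncomputable section

namespace Fermat.Agent.H4.ORD

/-- **[HART]** local Hartogs at the `ℚ̄`-level for the charts of `X₀(M p)`, unconditional. -/
theorem nmHartogs4 (M p : ℕ) [NeZero M] [NeZero p] :
    Fermat.Agent.H84.ORD.NmHartogsStatement M p :=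
  Fermat.Agent.H31.ORD.nmHartogs_of_model M p (hartModel M p)

end Fermat.Agent.H4.ORD
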